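import Fermat.Agent.Lib.Mazur.G.Loc.Sing

/-!
# MAZUR (G), local part LOC: statements for a Weierstrass curve over `ℤ` and `ℚ̄`

`mzgl_local_I`, `mzgl_local_II`: the valuation of `∏_{0<m<p} ψ₂(mQ)` at a valuation subring `A`
of `ℚ̄` in which `p` is a unit, according to whether `Q` lies in the zero component at `A`
(`WeierstrassCurve.InZeroComponentAt`) or not.
`mzgl_val_prime_of_liesOver`: `p` is a unit at the places above `ℓ ≠ p`.
-/

open WeierstrassCurve WeierstrassCurve.Affine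
open Fermat.Agent.ET

namespace Fermat.Agent.Mazur

section General

variable {K : Type*} [Field K] [DecidableEq K] {A : ValuationSubring K}
  (W : WeierstrassCurve ↥A)

/-- Case I for a curve over `K` identified with the generic fibre of the model `W`. -/
theorem mzgl_local_I_gen (WK : WeierstrassCurve K) [WK.IsElliptic] (hK : W.map A.subtype = WK)
    (Wk : WeierstrassCurve (IsLocalRing.ResidueField ↥A))
    (hk : W.map (IsLocalRing.residue ↥A) = Wk)
    {p : ℕ} (hp : p.Prime) (hp2 : p ≠ 2) (hAp : A.valuation (p : K) = 1)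
    (Q : WK.toAffine.Point) (hQ : addOrderOf Q = p)
    (hI : Q = 0 ∨ ∃ (x y : K) (h : WK.toAffine.Nonsingular x y), Q = .some x y h ∧
      (x ∉ A ∨ ∃ (hx : x ∈ A) (hy : y ∈ A), Wk.toAffine.Nonsingular
        (IsLocalRing.residue ↥A ⟨x, hx⟩) (IsLocalRing.residue ↥A ⟨y, hy⟩))) :
    A.valuation (mzgaPi WK Q p) = 1 := by
  subst hK hk
  have hpQ : p • Q = 0 := by rw [← hQ]; exact addOrderOf_nsmul_eq_zero Q
  refine mzgl_caseI W hp hp2 hAp hQ ?_
  rcases hI with h0 | ⟨x, y, h, rfl, hx | ⟨hx, hy, hns⟩⟩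
  · exact Or.inl h0
  · exact absurd (mzgl_integral W hAp h hpQ).1 hx
  · exact Or.inr ⟨⟨x, hx⟩, ⟨y, hy⟩, h, rfl, hns⟩

/-- Case II for a curve over `K` identified with the generic fibre of the model `W`. -/
theorem mzgl_local_II_gen (WK : WeierstrassCurve K) [WK.IsElliptic] (hK : W.map A.subtype = WK)
    (Wk : WeierstrassCurve (IsLocalRing.ResidueField ↥A))
    (hk : W.map (IsLocalRing.residue ↥A) = Wk)
    {p : ℕ} (hp : p.Prime) (hAp : A.valuation (p : K) = 1)
    (Q : WK.toAffine.Point) (hQ : addOrderOf Q = p)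
    (hII : ¬ (Q = 0 ∨ ∃ (x y : K) (h : WK.toAffine.Nonsingular x y), Q = .some x y h ∧
      (x ∉ A ∨ ∃ (hx : x ∈ A) (hy : y ∈ A), Wk.toAffine.Nonsingular
        (IsLocalRing.residue ↥A ⟨x, hx⟩) (IsLocalRing.residue ↥A ⟨y, hy⟩)))) :
    A.valuation (mzgaPi WK Q p) < 1 := by
  subst hK hk
  refine mzgl_caseII W hp hAp hQ fun hg => hII ?_
  rcases hg with h0 | ⟨x, y, h, rfl, hns⟩
  · exact Or.inl h0
  · exact Or.inr ⟨x, y, h, rfl, Or.inr ⟨x.2, y.2, hns⟩⟩

end General

section Rat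

local notation "Qb" => AlgebraicClosure ℚ

/-- the base change to `ℚ̄` of a Weierstrass curve over `ℤ` is the generic fibre of its base
change to `A` -/
theorem mzgl_map_subtype (W : WeierstrassCurve ℤ) (A : ValuationSubring Qb) :
    (W.map (Int.castRingHom ↥A)).map A.subtype = (W.map (Int.castRingHom ℚ))⁄Qb := by
  change _ = (W.map (Int.castRingHom ℚ)).map (algebraMap ℚ Qb)
  rw [WeierstrassCurve.map_map, WeierstrassCurve.map_map]
  congr 1

theorem mzgl_map_residue (W : WeierstrassCurve ℤ) (A : ValuationSubring Qb) :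
    (W.map (Int.castRingHom ↥A)).map (IsLocalRing.residue ↥A) =
      W.map (Int.castRingHom (IsLocalRing.ResidueField ↥A)) := by
  rw [WeierstrassCurve.map_map]
  congr 1

theorem mzgl_isElliptic (W : WeierstrassCurve ℤ) (hΔ : W.Δ ≠ 0) :
    ((W.map (Int.castRingHom ℚ))⁄Qb).IsElliptic := by
  refine ⟨?_⟩
  change IsUnit ((W.map (Int.castRingHom ℚ)).map (algebraMap ℚ Qb)).Δ
  rw [WeierstrassCurve.map_Δ, WeierstrassCurve.map_Δ]
  refine isUnit_iff_ne_zero.mpr ?_
  simpa using hΔ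

/-- **LOC, case I.** -/
theorem mzgl_local_I {p : ℕ} (hp : p.Prime) (hp2 : p ≠ 2) (W : WeierstrassCurve ℤ)
    (hΔ : W.Δ ≠ 0) (Q : ((W.map (Int.castRingHom ℚ))⁄Qb).toAffine.Point)
    (hQord : addOrderOf Q = p) (A : ValuationSubring Qb) (hAp : A.valuation (p : Qb) = 1)
    (hI : W.InZeroComponentAt A Q) :
    A.valuation (mzgaPi ((W.map (Int.castRingHom ℚ))⁄Qb) Q p) = 1 := by
  have := mzgl_isElliptic W hΔ
  exact mzgl_local_I_gen (W.map (Int.castRingHom ↥A)) _ (mzgl_map_subtype W A) _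
    (mzgl_map_residue W A) hp hp2 hAp Q hQord hI

/-- **LOC, case II.** -/
theorem mzgl_local_II {p : ℕ} (hp : p.Prime) (W : WeierstrassCurve ℤ)
    (hΔ : W.Δ ≠ 0) (Q : ((W.map (Int.castRingHom ℚ))⁄Qb).toAffine.Point)
    (hQord : addOrderOf Q = p) (A : ValuationSubring Qb) (hAp : A.valuation (p : Qb) = 1)
    (hII : ¬ W.InZeroComponentAt A Q) :
    A.valuation (mzgaPi ((W.map (Int.castRingHom ℚ))⁄Qb) Q p) < 1 := by
  have := mzgl_isElliptic W hΔ
  exact mzgl_local_II_gen (W.map (Int.castRingHom ↥A)) _ (mzgl_map_subtype W A) _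
    (mzgl_map_residue W A) hp hAp Q hQord hII

end Rat

/-- a prime `p` is a unit at a place above a prime `ℓ ≠ p` -/
theorem mzgl_val_prime_of_liesOver {L : Type*} [Field L] (A : ValuationSubring L) {ℓ p : ℕ}
    (hA : A.LiesOverPrime ℓ) (hℓ : ℓ.Prime) (hp : p.Prime) (h : ℓ ≠ p) :
    A.valuation (p : L) = 1 := by
  have hℓlt : A.valuation (ℓ : L) < 1 := (ValuationSubring.mem_nonunits_iff (A := A)).mp hA
  refine le_antisymm ((A.valuation_le_one_iff _).mpr (natCast_mem A p)) ?_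
  by_contra hlt
  rw [not_le] at hlt
  have hcop : Nat.Coprime ℓ p := (Nat.coprime_primes hℓ hp).mpr h
  have hbez : ((ℓ : ℤ).gcdA p) * ℓ + ((ℓ : ℤ).gcdB p) * p = 1 := by
    have := Int.gcd_eq_gcd_ab (ℓ : ℤ) p
    rw [Int.gcd_natCast_natCast, hcop.gcd_eq_one] at this
    push_cast at this
    linarith
  have hL : (((ℓ : ℤ).gcdA p : ℤ) : L) * (ℓ : L) + (((ℓ : ℤ).gcdB p : ℤ) : L) * (p : L) = 1 := by
    have := congrArg (Int.cast : ℤ → L) hbez
    push_cast at this
    exact this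
  have h1 : A.valuation (1 : L) < 1 := by
    rw [← hL]
    exact A.valuation.map_add_lt (etg_mul_lt (intCast_mem A _) hℓlt)
      (etg_mul_lt (intCast_mem A _) hlt)
  rw [map_one] at h1
  exact lt_irrefl _ h1

end Fermat.Agent.Mazur
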