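import Mathlib
import Fermat.Agent.Lib.ET.RedClose
import Fermat.Agent.Lib.Mazur.G.An.Transport
import Fermat.Prelude.Def_EllipticCurve_ZeroComponentAt
import Fermat.Prelude.Def_FLTPrelim_Ramification

/-!
# MAZUR (G), local part LOC: the valuation of `∏_{0<m<p} ψ₂(mQ)` at a place not above `p`

`A` a valuation subring of a field `K`, `W` a Weierstrass curve over `A` (elliptic over `K`),
`Q` a point of order `p` over `K`, `p` a unit of `A`.  All multiples of `Q` are integral.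

* **Case I** (`mzgl_caseI`, `mzgl_local_I`): `p` odd and `Q` reduces to a nonsingular point of
  the special fibre.  Then every `ψ₂(mQ)`, `0 < m < p`, is a unit, so the product has valuation
  one.  (The points with nonsingular reduction are closed under addition,
  `mzgl_good_add`; a good point `P` with `ψ₂(P)` a non-unit and `2P ≠ 0` has a non-integral
  double.)
* **Case II** (`mzgl_caseII`, `mzgl_local_II`): `Q` reduces to the singular point.  Then
  `ψ₂(Q)` is a non-unit and the product has valuation `< 1`.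
-/

open WeierstrassCurve WeierstrassCurve.Affine
open Fermat.Agent.ET

namespace Fermat.Agent.Mazur

section Field

theorem mzgl_some_congr {F : Type*} [Field F] {W : Affine F} {x y x' y' : F}
    (h : W.Nonsingular x y) (h' : W.Nonsingular x' y')
    (hx : x = x') (hy : y = y') : Point.some x y h = Point.some x' y' h' := by
  subst hx hy; rfl

variable {F : Type*} [Field F] [DecidableEq F] (W : Affine F)

/-- the two linear relations characterising the slope of the line through two points -/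
theorem mzgl_slope_rel {x₁ x₂ y₁ y₂ : F} (h₁ : W.Equation x₁ y₁) (h₂ : W.Equation x₂ y₂)
    (hxy : ¬(x₁ = x₂ ∧ y₁ = W.negY x₂ y₂)) :
    W.slope x₁ x₂ y₁ y₂ * (x₁ - x₂) = y₁ - y₂ ∧
      W.slope x₁ x₂ y₁ y₂ * (y₁ + y₂ + W.a₁ * x₂ + W.a₃) =
        x₁ ^ 2 + x₁ * x₂ + x₂ ^ 2 + W.a₂ * (x₁ + x₂) + W.a₄ - W.a₁ * y₁ := by
  by_cases hx : x₁ = x₂
  · have hy : y₁ ≠ W.negY x₂ y₂ := fun h => hxy ⟨hx, h⟩
    have hyy : y₁ = y₂ := Y_eq_of_Y_ne h₁ h₂ hx hy
    subst hx
    subst hyy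
    rw [slope_of_Y_ne rfl hy]
    have h0 : y₁ - W.negY x₁ y₁ ≠ 0 := sub_ne_zero.mpr hy
    have e : y₁ + y₁ + W.a₁ * x₁ + W.a₃ = y₁ - W.negY x₁ y₁ := by
      simp only [negY]; ring
    refine ⟨by ring, ?_⟩
    rw [e, div_mul_cancel₀ _ h0]
    ring
  · rw [slope_of_X_ne hx]
    have h0 : x₁ - x₂ ≠ 0 := sub_ne_zero.mpr hx
    refine ⟨div_mul_cancel₀ _ h0, ?_⟩
    have e₁ := (equation_iff _ _).mp h₁
    have e₂ := (equation_iff _ _).mp h₂
    rw [div_mul_eq_mul_div, div_eq_iff h0]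
    linear_combination e₁ - e₂

/-- the two linear relations determine the slope -/
theorem mzgl_slope_eq {x₁ x₂ y₁ y₂ ℓ : F} (h₁ : W.Equation x₁ y₁) (h₂ : W.Equation x₂ y₂)
    (hxy : ¬(x₁ = x₂ ∧ y₁ = W.negY x₂ y₂))
    (ha : ℓ * (x₁ - x₂) = y₁ - y₂)
    (hb : ℓ * (y₁ + y₂ + W.a₁ * x₂ + W.a₃) =
        x₁ ^ 2 + x₁ * x₂ + x₂ ^ 2 + W.a₂ * (x₁ + x₂) + W.a₄ - W.a₁ * y₁) :
    ℓ = W.slope x₁ x₂ y₁ y₂ := by
  by_cases hx : x₁ = x₂
  · have hy : y₁ ≠ W.negY x₂ y₂ := fun h => hxy ⟨hx, h⟩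
    have hyy : y₁ = y₂ := Y_eq_of_Y_ne h₁ h₂ hx hy
    subst hx
    subst hyy
    rw [slope_of_Y_ne rfl hy]
    have h0 : y₁ - W.negY x₁ y₁ ≠ 0 := sub_ne_zero.mpr hy
    have e : y₁ + y₁ + W.a₁ * x₁ + W.a₃ = y₁ - W.negY x₁ y₁ := by
      simp only [negY]; ring
    rw [e] at hb
    rw [eq_div_iff h0, hb]
    ring
  · rw [slope_of_X_ne hx]
    have h0 : x₁ - x₂ ≠ 0 := sub_ne_zero.mpr hx
    rw [eq_div_iff h0, ha]

end Field

section Model

variable {K : Type*} [Field K] {A : ValuationSubring K}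

/-- the residue of `a` is nonzero iff `a` has valuation one -/
theorem mzgl_residue_ne_zero_iff (a : ↥A) :
    IsLocalRing.residue ↥A a ≠ 0 ↔ A.valuation (a : K) = 1 := by
  rw [IsLocalRing.residue_ne_zero_iff_isUnit, A.valuation_eq_one_iff]

/-- the residue of `a` is zero iff `a` has valuation `< 1` -/
theorem mzgl_residue_eq_zero_iff (a : ↥A) :
    IsLocalRing.residue ↥A a = 0 ↔ A.valuation (a : K) < 1 := by
  rw [IsLocalRing.residue_eq_zero_iff, A.valuation_lt_one_iff]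

variable (W : WeierstrassCurve ↥A)

/-- valuation form of the nonsingularity of the reduction of an integral point -/
theorem mzgl_ns_iff {x y : ↥A} (h : W.toAffine.Equation x y) :
    (W.map (IsLocalRing.residue ↥A)).toAffine.Nonsingular
        (IsLocalRing.residue ↥A x) (IsLocalRing.residue ↥A y) ↔
      (A.valuation (2 * (y : K) + (W.map A.subtype).a₁ * x + (W.map A.subtype).a₃) = 1 ∨
       A.valuation (3 * (x : K) ^ 2 + 2 * (W.map A.subtype).a₂ * x + (W.map A.subtype).a₄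
          - (W.map A.subtype).a₁ * y) = 1) := by
  rw [nonsingular_iff']
  have e1 : (W.map (IsLocalRing.residue ↥A)).a₁ * IsLocalRing.residue ↥A y -
      (3 * IsLocalRing.residue ↥A x ^ 2 + 2 * (W.map (IsLocalRing.residue ↥A)).a₂ *
        IsLocalRing.residue ↥A x + (W.map (IsLocalRing.residue ↥A)).a₄) =
      IsLocalRing.residue ↥A (W.a₁ * y - (3 * x ^ 2 + 2 * W.a₂ * x + W.a₄)) := by
    simp [map_ofNat]
  have e2 : 2 * IsLocalRing.residue ↥A y + (W.map (IsLocalRing.residue ↥A)).a₁ *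
      IsLocalRing.residue ↥A x + (W.map (IsLocalRing.residue ↥A)).a₃ =
      IsLocalRing.residue ↥A (2 * y + W.a₁ * x + W.a₃) := by
    simp [map_ofNat]
  rw [e1, e2, mzgl_residue_ne_zero_iff, mzgl_residue_ne_zero_iff]
  have e3 : ((W.a₁ * y - (3 * x ^ 2 + 2 * W.a₂ * x + W.a₄) : ↥A) : K) =
      -(3 * (x : K) ^ 2 + 2 * (W.map A.subtype).a₂ * x + (W.map A.subtype).a₄
          - (W.map A.subtype).a₁ * y) := by
    rw [← ValuationSubring.subtype_apply]
    simp only [map_sub, map_add, map_mul, map_pow, map_ofNat, WeierstrassCurve.map_a₁,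
      WeierstrassCurve.map_a₂, WeierstrassCurve.map_a₄, ValuationSubring.subtype_apply]
    ring
  have e4 : ((2 * y + W.a₁ * x + W.a₃ : ↥A) : K) =
      2 * (y : K) + (W.map A.subtype).a₁ * x + (W.map A.subtype).a₃ := by
    rw [← ValuationSubring.subtype_apply]
    simp only [map_add, map_mul, map_ofNat, WeierstrassCurve.map_a₁,
      WeierstrassCurve.map_a₃, ValuationSubring.subtype_apply]
  rw [e3, e4, Valuation.map_neg]
  constructor
  · rintro ⟨-, h1 | h1⟩
    · exact Or.inr h1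
    · exact Or.inl h1
  · rintro (h1 | h1)
    · exact ⟨h.map _, Or.inr h1⟩
    · exact ⟨h.map _, Or.inl h1⟩

/-- `P` is the origin or an integral point with nonsingular reduction -/
def MzglGood (P : (W.map A.subtype).toAffine.Point) : Prop :=
  P = 0 ∨ ∃ (x y : ↥A) (h : (W.map A.subtype).toAffine.Nonsingular (x : K) (y : K)),
    P = Point.some (x : K) (y : K) h ∧
      (W.map (IsLocalRing.residue ↥A)).toAffine.Nonsingular
        (IsLocalRing.residue ↥A x) (IsLocalRing.residue ↥A y)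

theorem mzgl_equation_of_map {x y : ↥A}
    (h : (W.map A.subtype).toAffine.Equation (x : K) (y : K)) : W.toAffine.Equation x y :=
  (map_equation (W := W.toAffine) (f := A.subtype) Subtype.val_injective x y).mp h

variable [DecidableEq K]

/-- **Closure of the good points under addition**, provided the sum is integral. -/
theorem mzgl_good_add {P₁ P₂ : (W.map A.subtype).toAffine.Point}
    (h₁ : MzglGood W P₁) (h₂ : MzglGood W P₂)
    (hint : ∀ x y h, P₁ + P₂ = Point.some x y h → x ∈ A) : MzglGood W (P₁ + P₂) := by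
  classical
  rcases h₁ with rfl | ⟨x₁, y₁, hn₁, rfl, hr₁⟩
  · rw [zero_add]; exact h₂
  rcases h₂ with rfl | ⟨x₂, y₂, hn₂, rfl, hr₂⟩
  · rw [add_zero]; exact Or.inr ⟨x₁, y₁, hn₁, rfl, hr₁⟩
  obtain ⟨ha₁, ha₂, ha₃, ha₄, ha₆⟩ := etg_map_a_mem A W
  by_cases hxy : ((x₁ : K) = x₂ ∧ (y₁ : K) = (W.map A.subtype).toAffine.negY x₂ y₂)
  · exact Or.inl (Point.add_of_Y_eq hxy.1 hxy.2)
  right
  have hsum := Point.add_some hxy (h₁ := hn₁) (h₂ := hn₂)
  set L := (W.map A.subtype).toAffine.slope (x₁ : K) x₂ y₁ y₂ with hLdef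
  have hx₃ : (W.map A.subtype).toAffine.addX (x₁ : K) x₂ L ∈ A := hint _ _ _ hsum
  have hL : L ∈ A := by
    by_contra hL
    exact etgc_addX_notMem ha₁ ha₂ x₁.2 x₂.2 hL hx₃
  have E₁ : W.toAffine.Equation x₁ y₁ := mzgl_equation_of_map W hn₁.1
  have E₂ : W.toAffine.Equation x₂ y₂ := mzgl_equation_of_map W hn₂.1
  obtain ⟨ra, rb⟩ := mzgl_slope_rel (W.map A.subtype).toAffine hn₁.1 hn₂.1 hxy
  rw [← hLdef] at ra rb
  let ℓ : ↥A := ⟨L, hL⟩
  have hℓL : A.subtype ℓ = L := rfl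
  -- the relations over `A`
  have raA : ℓ * (x₁ - x₂) = y₁ - y₂ := by
    apply Subtype.val_injective
    simpa using ra
  have rbA : ℓ * (y₁ + y₂ + W.a₁ * x₂ + W.a₃) =
      x₁ ^ 2 + x₁ * x₂ + x₂ ^ 2 + W.a₂ * (x₁ + x₂) + W.a₄ - W.a₁ * y₁ := by
    apply Subtype.val_injective
    simpa using rb
  -- the relations over the residue field
  have rak : IsLocalRing.residue ↥A ℓ * (IsLocalRing.residue ↥A x₁ - IsLocalRing.residue ↥A x₂) =
      IsLocalRing.residue ↥A y₁ - IsLocalRing.residue ↥A y₂ := by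
    simpa using congrArg (IsLocalRing.residue ↥A) raA
  have rbk : IsLocalRing.residue ↥A ℓ * (IsLocalRing.residue ↥A y₁ + IsLocalRing.residue ↥A y₂ +
        (W.map (IsLocalRing.residue ↥A)).toAffine.a₁ * IsLocalRing.residue ↥A x₂ +
        (W.map (IsLocalRing.residue ↥A)).toAffine.a₃) =
      IsLocalRing.residue ↥A x₁ ^ 2 + IsLocalRing.residue ↥A x₁ * IsLocalRing.residue ↥A x₂ +
        IsLocalRing.residue ↥A x₂ ^ 2 + (W.map (IsLocalRing.residue ↥A)).toAffine.a₂ *
          (IsLocalRing.residue ↥A x₁ + IsLocalRing.residue ↥A x₂) +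
        (W.map (IsLocalRing.residue ↥A)).toAffine.a₄ -
        (W.map (IsLocalRing.residue ↥A)).toAffine.a₁ * IsLocalRing.residue ↥A y₁ := by
    simpa using congrArg (IsLocalRing.residue ↥A) rbA
  by_cases hxyk : (IsLocalRing.residue ↥A x₁ = IsLocalRing.residue ↥A x₂ ∧
      IsLocalRing.residue ↥A y₁ = (W.map (IsLocalRing.residue ↥A)).toAffine.negY
        (IsLocalRing.residue ↥A x₂) (IsLocalRing.residue ↥A y₂))
  · -- reduction of the sum is the origin: the sum is not integral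
    exfalso
    have hx : A.valuation ((x₁ : K) - x₂) < 1 := by
      have : IsLocalRing.residue ↥A (x₁ - x₂) = 0 := by rw [map_sub, hxyk.1, sub_self]
      exact (mzgl_residue_eq_zero_iff _).mp this
    have hy : A.valuation ((y₁ : K) - (W.map A.subtype).toAffine.negY x₂ y₂) < 1 := by
      have h1 : IsLocalRing.residue ↥A (y₁ - W.toAffine.negY x₂ y₂) = 0 := by
        rw [map_sub, ← map_negY, hxyk.2, sub_self]
      have h2 := (mzgl_residue_eq_zero_iff _).mp h1
      have h3 : ((y₁ - W.toAffine.negY x₂ y₂ : ↥A) : K) =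
          (y₁ : K) - (W.map A.subtype).toAffine.negY x₂ y₂ := by
        rw [← ValuationSubring.subtype_apply, map_sub, ← map_negY]
        rfl
      rwa [h3] at h2
    obtain ⟨x₃, y₃, h₃, hadd, hx₃'⟩ := etgc_add_notMem ha₁ ha₂ hn₁ hn₂ x₁.2 x₂.2 hx hy
      ((mzgl_ns_iff W E₁).mp hr₁) hxy
    exact hx₃' (hint _ _ _ hadd)
  · have hℓ := mzgl_slope_eq (W.map (IsLocalRing.residue ↥A)).toAffine hr₁.1 hr₂.1 hxyk rak rbk
    have NS := nonsingular_add hr₁ hr₂ hxyk
    rw [← hℓ, map_addX, map_addY] at NS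
    have e1 : (W.map A.subtype).toAffine.addX (x₁ : K) x₂ L =
        ((W.toAffine.addX x₁ x₂ ℓ : ↥A) : K) := map_addX (W' := W.toAffine) A.subtype x₁ x₂ ℓ
    have e2 : (W.map A.subtype).toAffine.addY (x₁ : K) x₂ y₁ L =
        ((W.toAffine.addY x₁ x₂ y₁ ℓ : ↥A) : K) :=
      map_addY (W' := W.toAffine) A.subtype x₁ y₁ x₂ ℓ
    have hns₃ := nonsingular_add hn₁ hn₂ hxy
    rw [← hLdef] at hns₃
    refine ⟨W.toAffine.addX x₁ x₂ ℓ, W.toAffine.addY x₁ x₂ y₁ ℓ, ?_, ?_, NS⟩
    · rw [← e1, ← e2]; exact hns₃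
    · rw [hsum]
      exact mzgl_some_congr _ _ e1 e2


variable [(W.map A.subtype).IsElliptic]

/-- multiples of a torsion point of unit order are integral -/
theorem mzgl_integral {n : ℕ} (hn : A.valuation (n : K) = 1) {x y : K}
    (h : (W.map A.subtype).toAffine.Nonsingular x y) (hP : n • Point.some x y h = 0) :
    x ∈ A ∧ y ∈ A := by
  obtain ⟨ha₁, ha₂, ha₃, ha₄, ha₆⟩ := etg_map_a_mem A W
  exact etg_integral ha₁ ha₂ ha₃ ha₄ ha₆ hn h hP

/-- all multiples of a good torsion point of unit order are good -/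
theorem mzgl_good_nsmul {n : ℕ} (hn : A.valuation (n : K) = 1)
    {Q : (W.map A.subtype).toAffine.Point} (hQ : n • Q = 0) (hg : MzglGood W Q) (m : ℕ) :
    MzglGood W (m • Q) := by
  induction m with
  | zero => rw [zero_smul]; exact Or.inl rfl
  | succ m ih =>
    rw [succ_nsmul]
    refine mzgl_good_add W ih hg ?_
    intro x y h hsum
    have h0 : n • Point.some x y h = 0 := by
      rw [← hsum, ← succ_nsmul, smul_comm, hQ, smul_zero]
    exact (mzgl_integral W hn h h0).1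

/-- `ψ₂` of a torsion point of unit order is integral -/
theorem mzgl_psi2_mem {n : ℕ} (hn : A.valuation (n : K) = 1)
    {P : (W.map A.subtype).toAffine.Point} (hP : n • P = 0) :
    mzgaPsi2 (W.map A.subtype) P ∈ A := by
  obtain ⟨ha₁, ha₂, ha₃, ha₄, ha₆⟩ := etg_map_a_mem A W
  rcases P with _ | ⟨x, y, h⟩
  · exact one_mem A
  · obtain ⟨hx, hy⟩ := mzgl_integral W hn h hP
    exact add_mem (add_mem (mul_mem (ofNat_mem A 2) hy) (mul_mem ha₁ hx)) ha₃

/-- `ψ₂` of a good torsion point `P` of unit order with `2P ≠ 0` is a unit -/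
theorem mzgl_psi2_unit {n : ℕ} (hn : A.valuation (n : K) = 1)
    {P : (W.map A.subtype).toAffine.Point} (hP : n • P = 0) (hg : MzglGood W P)
    (h2 : 2 • P ≠ 0) : A.valuation (mzgaPsi2 (W.map A.subtype) P) = 1 := by
  obtain ⟨ha₁, ha₂, ha₃, ha₄, ha₆⟩ := etg_map_a_mem A W
  have hmem := mzgl_psi2_mem W hn hP
  rcases hg with rfl | ⟨x, y, h, rfl, hr⟩
  · exact absurd (smul_zero 2) h2
  by_contra hne
  have hlt : A.valuation (2 * (y : K) + (W.map A.subtype).a₁ * x + (W.map A.subtype).a₃) < 1 :=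
    lt_of_le_of_ne ((A.valuation_le_one_iff _).mpr hmem) hne
  have E : W.toAffine.Equation x y := mzgl_equation_of_map W h.1
  have hψ : (y : K) - (W.map A.subtype).toAffine.negY x y =
      2 * (y : K) + (W.map A.subtype).a₁ * x + (W.map A.subtype).a₃ := by
    simp only [negY]; ring
  have hyne : ¬ ((x : K) = x ∧ (y : K) = (W.map A.subtype).toAffine.negY x y) := by
    rintro ⟨-, hy⟩
    apply h2
    rw [two_nsmul]
    exact Point.add_self_of_Y_eq hy
  obtain ⟨x₃, y₃, h₃, hadd, hx₃⟩ := etgc_add_notMem ha₁ ha₂ h h x.2 x.2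
    (by rw [sub_self, map_zero]; exact zero_lt_one) (by rw [hψ]; exact hlt)
    ((mzgl_ns_iff W E).mp hr) hyne
  have h0 : n • Point.some x₃ y₃ h₃ = 0 := by
    rw [← hadd, smul_add, hP, add_zero]
  exact hx₃ (mzgl_integral W hn h₃ h0).1

/-- multiples `mQ`, `0 < m < p`, of a point of prime order `p` -/
theorem mzgl_nsmul_ne_zero {G : Type*} [AddGroup G] {p : ℕ} {Q : G} (hQ : addOrderOf Q = p)
    {m : ℕ} (hm : m ∈ Finset.Ico 1 p) : m • Q ≠ 0 := by
  intro h
  have hdvd : p ∣ m := by rw [← hQ]; exact addOrderOf_dvd_of_nsmul_eq_zero h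
  have := Finset.mem_Ico.mp hm
  exact absurd (Nat.le_of_dvd (by omega) hdvd) (by omega)

/-- **Case I**: `Q` of odd prime order `p` (a unit of `A`) with nonsingular reduction:
`∏ ψ₂(mQ)` is a unit. -/
theorem mzgl_caseI {p : ℕ} (hp : p.Prime) (hp2 : p ≠ 2) (hAp : A.valuation (p : K) = 1)
    {Q : (W.map A.subtype).toAffine.Point} (hQ : addOrderOf Q = p) (hg : MzglGood W Q) :
    A.valuation (mzgaPi (W.map A.subtype) Q p) = 1 := by
  have hpQ : p • Q = 0 := by rw [← hQ]; exact addOrderOf_nsmul_eq_zero Q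
  unfold mzgaPi
  rw [map_prod]
  refine Finset.prod_eq_one fun m hm => ?_
  refine mzgl_psi2_unit W hAp ?_ (mzgl_good_nsmul W hAp hpQ hg m) ?_
  · rw [smul_comm, hpQ, smul_zero]
  · intro h
    rw [← mul_nsmul'] at h
    have hdvd : p ∣ 2 * m := by rw [← hQ]; exact addOrderOf_dvd_of_nsmul_eq_zero h
    rcases hp.dvd_mul.mp hdvd with h1 | h1
    · exact hp2 ((Nat.prime_dvd_prime_iff_eq hp Nat.prime_two).mp h1)
    · have := Finset.mem_Ico.mp hm
      exact absurd (Nat.le_of_dvd (by omega) h1) (by omega)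

/-- **Case II**: `Q` of prime order `p` (a unit of `A`) with singular reduction:
`∏ ψ₂(mQ)` is a non-unit. -/
theorem mzgl_caseII {p : ℕ} (hp : p.Prime) (hAp : A.valuation (p : K) = 1)
    {Q : (W.map A.subtype).toAffine.Point} (hQ : addOrderOf Q = p) (hb : ¬ MzglGood W Q) :
    A.valuation (mzgaPi (W.map A.subtype) Q p) < 1 := by
  have hpQ : p • Q = 0 := by rw [← hQ]; exact addOrderOf_nsmul_eq_zero Q
  have h1 : (1 : ℕ) ∈ Finset.Ico 1 p := Finset.mem_Ico.mpr ⟨le_refl _, hp.one_lt⟩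
  unfold mzgaPi
  rw [← Finset.mul_prod_erase _ _ h1]
  refine etg_mul_lt' ?_ (prod_mem fun m _ => mzgl_psi2_mem W hAp (by rw [smul_comm, hpQ, smul_zero]))
  rw [one_smul]
  rcases Q with _ | ⟨x, y, h⟩
  · exact absurd (Or.inl rfl) hb
  obtain ⟨hx, hy⟩ := mzgl_integral W hAp h hpQ
  have E : W.toAffine.Equation (⟨x, hx⟩ : ↥A) ⟨y, hy⟩ := mzgl_equation_of_map W h.1
  have hmem := mzgl_psi2_mem W hAp hpQ
  refine lt_of_le_of_ne ((A.valuation_le_one_iff _).mpr hmem) fun h1 => hb ?_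
  exact Or.inr ⟨⟨x, hx⟩, ⟨y, hy⟩, h, rfl, (mzgl_ns_iff W E).mpr (Or.inl h1)⟩

end Model

end Fermat.Agent.Mazur
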